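import Mathlib
import Fermat.Prelude.Def_AlgebraicCurve_DivisorClassGroup

set_option autoImplicit false

namespace Fermat.Agent.S24.FibreCount.ValPlace

open AlgebraicCurve

/-- An integer valued order function on a field (values at `0` are irrelevant). -/
def IsOrd {F : Type*} [Field F] (u : F → ℤ) : Prop :=
  (∀ a b : F, a ≠ 0 → b ≠ 0 → u (a * b) = u a + u b) ∧
    (∀ a b : F, a ≠ 0 → b ≠ 0 → a + b ≠ 0 → min (u a) (u b) ≤ u (a + b))

namespace IsOrd

variable {F : Type*} [Field F] {u : F → ℤ} (hu : IsOrd u)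
include hu

theorem map_mul {a b : F} (ha : a ≠ 0) (hb : b ≠ 0) : u (a * b) = u a + u b := hu.1 a b ha hb

theorem map_add {a b : F} (ha : a ≠ 0) (hb : b ≠ 0) (hab : a + b ≠ 0) :
    min (u a) (u b) ≤ u (a + b) := hu.2 a b ha hb hab

theorem map_one : u 1 = 0 := by
  have h := hu.map_mul (one_ne_zero (α := F)) one_ne_zero
  rw [mul_one] at h
  omega

theorem map_neg_one : u (-1) = 0 := by
  have h := hu.map_mul (neg_ne_zero.mpr (one_ne_zero (α := F))) (neg_ne_zero.mpr one_ne_zero)
  rw [neg_mul_neg, mul_one, hu.map_one] at h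
  omega

theorem map_neg {a : F} (ha : a ≠ 0) : u (-a) = u a := by
  have h := hu.map_mul (neg_ne_zero.mpr (one_ne_zero (α := F))) ha
  rw [neg_one_mul, hu.map_neg_one] at h
  omega

theorem map_inv {a : F} (ha : a ≠ 0) : u a⁻¹ = - u a := by
  have h := hu.map_mul ha (inv_ne_zero ha)
  rw [mul_inv_cancel₀ ha, hu.map_one] at h
  omega

theorem map_div {a b : F} (ha : a ≠ 0) (hb : b ≠ 0) : u (a / b) = u a - u b := by
  rw [div_eq_mul_inv, hu.map_mul ha (inv_ne_zero hb), hu.map_inv hb]
  ring

theorem map_pow {a : F} (ha : a ≠ 0) (n : ℕ) : u (a ^ n) = n * u a := by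
  induction n with
  | zero => simp [hu.map_one]
  | succ n ih =>
    rw [pow_succ, hu.map_mul (pow_ne_zero n ha) ha, ih]
    push_cast
    ring

theorem map_zpow {a : F} (ha : a ≠ 0) (n : ℤ) : u (a ^ n) = n * u a := by
  cases n with
  | ofNat n => simpa using hu.map_pow ha n
  | negSucc n =>
    rw [zpow_negSucc, hu.map_inv (pow_ne_zero _ ha), hu.map_pow ha]
    push_cast
    rw [Int.negSucc_eq]
    ring

theorem map_prod {ι : Type*} (s : Finset ι) (f : ι → F) (hf : ∀ i ∈ s, f i ≠ 0) :
    u (∏ i ∈ s, f i) = ∑ i ∈ s, u (f i) := by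
  classical
  induction s using Finset.induction_on with
  | empty => simp [hu.map_one]
  | insert a s ha ih =>
    rw [Finset.prod_insert ha, Finset.sum_insert ha,
      hu.map_mul (hf a (Finset.mem_insert_self a s))
        (Finset.prod_ne_zero_iff.mpr fun i hi => hf i (Finset.mem_insert_of_mem hi)),
      ih fun i hi => hf i (Finset.mem_insert_of_mem hi)]

/-- Pull back an order function along a ring homomorphism of fields. -/
theorem comp {E : Type*} [Field E] (φ : E →+* F) : IsOrd (fun a => u (φ a)) := by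
  refine ⟨fun a b ha hb => ?_, fun a b ha hb hab => ?_⟩
  · simp only [_root_.map_mul]
    exact hu.map_mul ((map_ne_zero φ).mpr ha) ((map_ne_zero φ).mpr hb)
  · simp only [_root_.map_add]
    exact hu.map_add ((map_ne_zero φ).mpr ha) ((map_ne_zero φ).mpr hb)
      (by rw [← _root_.map_add]; exact (map_ne_zero φ).mpr hab)

/-- The valuation subring of an order function. -/
def valSubring : ValuationSubring F where
  carrier := {f | f = 0 ∨ 0 ≤ u f}
  mul_mem' := by
    rintro a b (rfl | ha) (rfl | hb)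
    · left; simp
    · left; simp
    · left; simp
    · by_cases ha0 : a = 0
      · left; simp [ha0]
      by_cases hb0 : b = 0
      · left; simp [hb0]
      right
      rw [hu.map_mul ha0 hb0]
      omega
  one_mem' := Or.inr (by rw [hu.map_one])
  add_mem' := by
    rintro a b ha hb
    by_cases ha0 : a = 0
    · simpa [ha0] using hb
    by_cases hb0 : b = 0
    · simpa [hb0] using ha
    by_cases hab : a + b = 0
    · left; exact hab
    right
    have h1 : 0 ≤ u a := ha.resolve_left ha0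
    have h2 : 0 ≤ u b := hb.resolve_left hb0
    have h3 := hu.map_add ha0 hb0 hab
    exact le_trans (le_min h1 h2) h3
  zero_mem' := Or.inl rfl
  neg_mem' := by
    rintro a (rfl | ha)
    · left; simp
    · by_cases ha0 : a = 0
      · left; simp [ha0]
      right
      rw [hu.map_neg ha0]
      exact ha
  mem_or_inv_mem' := by
    intro a
    by_cases ha0 : a = 0
    · left; left; exact ha0
    by_cases h : 0 ≤ u a
    · left; right; exact h
    · right; right
      rw [hu.map_inv ha0]
      omega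

theorem mem_valSubring {f : F} : f ∈ hu.valSubring ↔ f = 0 ∨ 0 ≤ u f := Iff.rfl

theorem mem_valSubring_of_ne {f : F} (hf : f ≠ 0) : f ∈ hu.valSubring ↔ 0 ≤ u f := by
  rw [hu.mem_valSubring]
  exact ⟨fun h => h.resolve_left hf, Or.inr⟩

theorem isPrincipalIdealRing_valSubring : IsPrincipalIdealRing hu.valSubring := by
  classical
  refine ⟨fun I => ?_⟩
  by_cases hI : I = ⊥
  · rw [hI]
    exact bot_isPrincipal
  obtain ⟨f₀, hf₀I, hf₀⟩ := Submodule.exists_mem_ne_zero_of_ne_bot hI
  have hf₀' : (f₀ : F) ≠ 0 := by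
    simpa [ne_eq, ZeroMemClass.coe_eq_zero] using hf₀
  have hex : ∃ n : ℕ, ∃ f ∈ I, f ≠ 0 ∧ u (f : F) = n := by
    refine ⟨(u (f₀ : F)).toNat, f₀, hf₀I, hf₀, ?_⟩
    have := (hu.mem_valSubring_of_ne hf₀').mp f₀.2
    omega
  obtain ⟨g, hgI, hg0, hgu⟩ := Nat.find_spec hex
  have hg0' : (g : F) ≠ 0 := by
    simpa [ne_eq, ZeroMemClass.coe_eq_zero] using hg0
  refine ⟨⟨g, ?_⟩⟩
  apply le_antisymm
  · intro f hf
    rw [Submodule.mem_span_singleton]
    by_cases hf0 : f = 0
    · exact ⟨0, by simp [hf0]⟩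
    have hf0' : (f : F) ≠ 0 := by
      simpa [ne_eq, ZeroMemClass.coe_eq_zero] using hf0
    have hfn : 0 ≤ u (f : F) := (hu.mem_valSubring_of_ne hf0').mp f.2
    have hmin : Nat.find hex ≤ (u (f : F)).toNat :=
      Nat.find_min' hex ⟨f, hf, hf0, by omega⟩
    have hle : u (g : F) ≤ u (f : F) := by omega
    have hq : (f : F) / (g : F) ∈ hu.valSubring := by
      rw [hu.mem_valSubring_of_ne (div_ne_zero hf0' hg0'), hu.map_div hf0' hg0']
      omega
    refine ⟨⟨_, hq⟩, ?_⟩
    apply Subtype.ext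
    simp only [smul_eq_mul, MulMemClass.coe_mul]
    field_simp
  · rw [Submodule.span_le]
    intro x hx
    rw [Set.mem_singleton_iff] at hx
    rw [hx]
    exact hgI

end IsOrd

variable {K F : Type*} [Field K] [Field F] [Algebra K F]

/-- The place of `F/K` attached to a nontrivial order function which vanishes on constants. -/
noncomputable def placeOfOrd {u : F → ℤ} (hu : IsOrd u)
    (hK : ∀ c : K, c ≠ 0 → u (algebraMap K F c) = 0)
    (hnt : ∃ t : F, t ≠ 0 ∧ 0 < u t) : Place K F where
  toValuationSubring := hu.valSubring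
  algebraMap_mem' := by
    intro a
    by_cases ha : a = 0
    · left; simp [ha]
    · right; rw [hK a ha]
  ne_top' := by
    obtain ⟨t, ht0, ht⟩ := hnt
    intro htop
    have hmem : t⁻¹ ∈ hu.valSubring := by rw [htop]; exact ValuationSubring.mem_top _
    rw [hu.mem_valSubring_of_ne (inv_ne_zero ht0), hu.map_inv ht0] at hmem
    omega
  isPrincipalIdealRing' := hu.isPrincipalIdealRing_valSubring

theorem placeOfOrd_toValuationSubring {u : F → ℤ} (hu : IsOrd u)
    (hK : ∀ c : K, c ≠ 0 → u (algebraMap K F c) = 0)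
    (hnt : ∃ t : F, t ≠ 0 ∧ 0 < u t) :
    (placeOfOrd hu hK hnt).toValuationSubring = hu.valSubring := rfl

/-- The order function is a positive multiple of the normalised order of its place. -/
theorem exists_ramification_placeOfOrd {u : F → ℤ} (hu : IsOrd u)
    (hK : ∀ c : K, c ≠ 0 → u (algebraMap K F c) = 0)
    (hnt : ∃ t : F, t ≠ 0 ∧ 0 < u t) :
    ∃ κ : ℤ, 0 < κ ∧ (∃ π : F, π ≠ 0 ∧ u π = κ) ∧
      ∀ f : F, f ≠ 0 → u f = κ * (placeOfOrd hu hK hnt).ord f := by
  classical
  set v := placeOfOrd hu hK hnt with hv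
  obtain ⟨π, hπ⟩ := IsDiscreteValuationRing.exists_irreducible v.toValuationSubring
  have hπ0 : (π : F) ≠ 0 := by
    simpa [ne_eq, ZeroMemClass.coe_eq_zero] using hπ.ne_zero
  have hunit : ∀ w : v.toValuationSubringˣ, u ((w : v.toValuationSubring) : F) = 0 := by
    intro w
    have hw0 : ((w : v.toValuationSubring) : F) ≠ 0 := by
      simp [ne_eq, ZeroMemClass.coe_eq_zero]
    have h1 : 0 ≤ u ((w : v.toValuationSubring) : F) :=
      (hu.mem_valSubring_of_ne hw0).mp (w : v.toValuationSubring).2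
    have hinv : (((w⁻¹ : v.toValuationSubringˣ) : v.toValuationSubring) : F)
        = ((w : v.toValuationSubring) : F)⁻¹ := by
      have h := congrArg (Subtype.val) (w.mul_inv)
      simp only [MulMemClass.coe_mul, OneMemClass.coe_one] at h
      exact eq_inv_of_mul_eq_one_right h
    have h2 : 0 ≤ u ((((w⁻¹ : v.toValuationSubringˣ) : v.toValuationSubring) : F)) := by
      have hw0' : ((((w⁻¹ : v.toValuationSubringˣ) : v.toValuationSubring) : F)) ≠ 0 := by
        simp [ne_eq, ZeroMemClass.coe_eq_zero]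
      exact (hu.mem_valSubring_of_ne hw0').mp ((w⁻¹ : v.toValuationSubringˣ) : v.toValuationSubring).2
    rw [hinv, hu.map_inv hw0] at h2
    omega
  have hκ0 : 0 ≤ u (π : F) := (hu.mem_valSubring_of_ne hπ0).mp π.2
  have hκ : 0 < u (π : F) := by
    rcases hκ0.lt_or_eq with h | h
    · exact h
    · exfalso
      apply hπ.not_isUnit
      have hmem : (π : F)⁻¹ ∈ hu.valSubring := by
        rw [hu.mem_valSubring_of_ne (inv_ne_zero hπ0), hu.map_inv hπ0]
        omega
      refine isUnit_iff_exists_inv.mpr ⟨⟨_, hmem⟩, ?_⟩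
      apply Subtype.ext
      simp [mul_inv_cancel₀ hπ0]
  refine ⟨u (π : F), hκ, ⟨π, hπ0, rfl⟩, fun f hf => ?_⟩
  obtain ⟨w, hw⟩ := v.exists_unit_mul_zpow hf hπ
  have hw0 : ((w : v.toValuationSubring) : F) ≠ 0 := by
    simp [ne_eq, ZeroMemClass.coe_eq_zero]
  conv_lhs => rw [hw]
  rw [hu.map_mul hw0 (zpow_ne_zero _ hπ0), hunit w, hu.map_zpow hπ0, zero_add, mul_comm]

end Fermat.Agent.S24.FibreCount.ValPlace
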