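import Mathlib
import Fermat.Agent.S24.FF.Dedekind

set_option autoImplicit false

/-!
Function-field input of the fibre count: prime avoidance among the places over `x = 0`
and the behaviour of the norm `N_{F/K(x)}` at these places.
-/

namespace Fermat.Agent.S24.FibreCount.Avoid

open AlgebraicCurve IsDedekindDomain IntermediateField
open scoped IntermediateField.algebraAdjoinAdjoin

variable {K F : Type*} [Field K] [Field F] [Algebra K F]

section Closure

variable (K) (x : F) [CharZero K] [hx : Fact (Transcendental K x)] [Module.Finite K⟮x⟯ F]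

local instance instPID : IsPrincipalIdealRing (Algebra.adjoin K {x}) :=
  FF.polyRing_isPrincipalIdealRing K x hx.out

local instance instDedekindClosure :
    IsDedekindDomain (integralClosure (Algebra.adjoin K {x}) F) :=
  integralClosure.isDedekindDomain (Algebra.adjoin K {x}) K⟮x⟯ F

local instance instFracClosure :
    IsFractionRing (integralClosure (Algebra.adjoin K {x}) F) F :=
  integralClosure.isFractionRing_of_finite_extension K⟮x⟯ F

local instance instFiniteClosure :
    Module.Finite (Algebra.adjoin K {x}) (integralClosure (Algebra.adjoin K {x}) F) :=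
  IsIntegralClosure.finite (Algebra.adjoin K {x}) K⟮x⟯ F _

local instance instTowerClosure :
    IsScalarTower K (integralClosure (Algebra.adjoin K {x}) F) F :=
  IsScalarTower.of_algebraMap_eq (fun c => by simp [Algebra.algebraMap_eq_smul_one])

/-- Every place over `x = 0` comes from a height one prime of the integral closure of `K[x]`. -/
theorem exists_prime_of_ord_pos (u : Place K F) (hu : 0 < u.ord x) :
    ∃ w : HeightOneSpectrum (integralClosure (Algebra.adjoin K {x}) F),
      Place.ofHeightOneSpectrum (K := K) (F := F) w = u := by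
  have hu' : u ∈ {v : Place K F | 0 < v.ord (x - algebraMap K F 0)} := by
    simpa using hu
  rw [← FF.range_fiberPlace K x 0] at hu'
  obtain ⟨q, hq⟩ := hu'
  exact ⟨_, hq⟩

/-- Prime avoidance among the places over `x = 0`. -/
theorem exists_avoid {I : Type*} [Fintype I] [Nonempty I] (v : Place K F) (hv : 0 < v.ord x)
    (P : I → Place K F) (hP : ∀ i, 0 < (P i).ord x) (hne : ∀ i, P i ≠ v) :
    ∃ b : integralClosure (Algebra.adjoin K {x}) F, b ≠ 0 ∧ 0 < v.ord (b : F) ∧
      ∀ i, (P i).ord (b : F) = 0 := by
  classical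
  obtain ⟨w, hw⟩ := exists_prime_of_ord_pos K x v hv
  choose w' hw' using fun i => exists_prime_of_ord_pos K x (P i) (hP i)
  have hnot : ¬ ((w.asIdeal : Set (integralClosure (Algebra.adjoin K {x}) F)) ⊆
      ⋃ i ∈ ((Finset.univ : Finset I) : Set I), ((w' i).asIdeal : Set _)) := by
    intro hsub
    rw [Ideal.subset_union_prime (Classical.arbitrary I) (Classical.arbitrary I)
      (fun i _ _ _ => (w' i).isPrime)] at hsub
    obtain ⟨i, -, hle⟩ := hsub
    have heq : w.asIdeal = (w' i).asIdeal := w.isMaximal.eq_of_le (w' i).isPrime.ne_top hle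
    apply hne i
    rw [← hw, ← hw' i, HeightOneSpectrum.ext heq]
  obtain ⟨b, hbw, hb⟩ := Set.not_subset.mp hnot
  have hb' : ∀ i, b ∉ (w' i).asIdeal := by
    intro i hi
    apply hb
    simp only [Set.mem_iUnion]
    exact ⟨i, by simp, hi⟩
  have hb0 : b ≠ 0 := by
    rintro rfl
    exact hb' (Classical.arbitrary I) (Ideal.zero_mem _)
  refine ⟨b, hb0, ?_, fun i => ?_⟩
  · have h := (FF.mem_asIdeal_iff_ord_pos (K := K) (F := F) w hb0).mp hbw
    rw [hw] at h
    exact h
  · have h1 : ¬ 0 < (P i).ord (b : F) := by
      intro hpos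
      apply hb' i
      rw [FF.mem_asIdeal_iff_ord_pos (K := K) (F := F) (w' i) hb0, hw' i]
      exact hpos
    have hmem : algebraMap (integralClosure (Algebra.adjoin K {x}) F) F b ∈
        (Place.ofHeightOneSpectrum (K := K) (F := F) (w' i)).toValuationSubring :=
      (w' i).valuation_le_one b
    rw [hw' i] at hmem
    have h2 : 0 ≤ (P i).ord (b : F) := FF.ord_nonneg_of_mem (P i) hmem
    omega

/-- The norm of an integral element is a polynomial in `x` and is divisible by the element in
the integral closure. -/
theorem exists_norm_eq (b : integralClosure (Algebra.adjoin K {x}) F) :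
    ∃ (p : Polynomial K) (y : integralClosure (Algebra.adjoin K {x}) F),
      algebraMap K⟮x⟯ F (Algebra.norm K⟮x⟯ (b : F)) = Polynomial.aeval x p ∧
        Polynomial.aeval x p = (b : F) * (y : F) := by
  have h1 := Algebra.algebraMap_intNorm (A := Algebra.adjoin K {x}) (K := K⟮x⟯) (L := F)
    (B := integralClosure (Algebra.adjoin K {x}) F) b
  obtain ⟨y, hy⟩ := Algebra.dvd_algebraMap_intNorm_self (Algebra.adjoin K {x})
    (integralClosure (Algebra.adjoin K {x}) F) b
  have hmem : ((Algebra.intNorm (Algebra.adjoin K {x})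
      (integralClosure (Algebra.adjoin K {x}) F) b : Algebra.adjoin K {x}) : F) ∈
      (Polynomial.aeval (R := K) x).range := by
    rw [← Algebra.adjoin_singleton_eq_range_aeval]
    exact Subtype.property _
  obtain ⟨p, hp0⟩ := hmem
  have hp : Polynomial.aeval x p = ((Algebra.intNorm (Algebra.adjoin K {x})
      (integralClosure (Algebra.adjoin K {x}) F) b : Algebra.adjoin K {x}) : F) := hp0
  refine ⟨p, y, ?_, ?_⟩
  · rw [hp]
    have h2 := congrArg (algebraMap K⟮x⟯ F) h1
    exact h2.symm
  · rw [hp]
    have h3 := congrArg (algebraMap (integralClosure (Algebra.adjoin K {x}) F) F) hy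
    rw [map_mul] at h3
    exact h3

omit [CharZero K] hx [Module.Finite K⟮x⟯ F] in
/-- Polynomials in `x` are integral at every place where `x` is. -/
theorem aeval_mem_of_mem (w : Place K F) {x : F} (hxw : x ∈ w.toValuationSubring)
    (p : Polynomial K) : Polynomial.aeval x p ∈ w.toValuationSubring := by
  let Osub : Subalgebra K F :=
    { w.toValuationSubring.toSubring with algebraMap_mem' := w.algebraMap_mem' }
  have hle : Algebra.adjoin K {x} ≤ Osub := Algebra.adjoin_le (by
    intro y hy
    rw [Set.mem_singleton_iff] at hy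
    rw [hy]
    exact hxw)
  exact hle (Polynomial.aeval_mem_adjoin_singleton K x)

omit [CharZero K] hx [Module.Finite K⟮x⟯ F] in
theorem mem_of_isIntegral_adjoin (w : Place K F) {x : F} (hxw : x ∈ w.toValuationSubring)
    {y : F} (hy : IsIntegral (Algebra.adjoin K {x}) y) : y ∈ w.toValuationSubring := by
  refine FF.mem_of_isIntegral w (R := Algebra.adjoin K {x}) (fun r => ?_) hy
  obtain ⟨q, hq⟩ : (r : F) ∈ (Polynomial.aeval (R := K) x).range := by
    rw [← Algebra.adjoin_singleton_eq_range_aeval]
    exact r.2
  have hq' : Polynomial.aeval x q = (r : F) := hq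
  have h := aeval_mem_of_mem K w hxw q
  rw [hq'] at h
  exact h

/-- **Key function field lemma.**  If `v` is a place over `x = 0` different from the places
`P i` (all over `x = 0`), there is a nonzero `a` which is a unit at all the `P i` and whose norm
to `K(x)` vanishes at every place over `x = 0`. -/
theorem exists_norm_pos {I : Type*} [Fintype I] [Nonempty I] (v : Place K F) (hv : 0 < v.ord x)
    (P : I → Place K F) (hP : ∀ i, 0 < (P i).ord x) (hne : ∀ i, P i ≠ v) :
    ∃ a : F, a ≠ 0 ∧ (∀ i, (P i).ord a = 0) ∧
      ∀ w : Place K F, 0 < w.ord x →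
        0 < w.ord (algebraMap K⟮x⟯ F (Algebra.norm K⟮x⟯ a)) := by
  obtain ⟨b, hb0, hvb, hPb⟩ := exists_avoid K x v hv P hP hne
  obtain ⟨p, y, hN, hby⟩ := exists_norm_eq K x b
  have ha0 : (b : F) ≠ 0 := by
    intro h
    exact hb0 (Subtype.ext h)
  have hnorm0 : Algebra.norm K⟮x⟯ (b : F) ≠ 0 := by
    rw [Ne, Algebra.norm_eq_zero_iff]
    exact ha0
  have hN0 : Polynomial.aeval x p ≠ 0 := by
    rw [← hN]
    simpa using hnorm0
  have hy0 : (y : F) ≠ 0 := by
    intro h
    rw [h, mul_zero] at hby
    exact hN0 hby
  have hxv : x ∈ v.toValuationSubring := FF.mem_of_ord_pos v hv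
  -- the norm vanishes at `v`
  have hvN : 0 < v.ord (Polynomial.aeval x p) := by
    rw [hby, v.ord_mul ha0 hy0]
    have : 0 ≤ v.ord (y : F) :=
      FF.ord_nonneg_of_mem v (mem_of_isIntegral_adjoin K v hxv y.2)
    omega
  -- hence its constant term vanishes
  have hdec : Polynomial.aeval x p = Polynomial.aeval x p.divX * x +
      algebraMap K F (p.coeff 0) := by
    conv_lhs => rw [← Polynomial.divX_mul_X_add p]
    simp
  have hc : p.coeff 0 = 0 := by
    by_contra hc
    have hc' : algebraMap K F (p.coeff 0) ≠ 0 := by simpa using hc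
    have hordc : v.ord (algebraMap K F (p.coeff 0)) = 0 := FF.ord_algebraMap v _
    by_cases hT : Polynomial.aeval x p.divX * x = 0
    · rw [hdec, hT, zero_add, hordc] at hvN
      exact lt_irrefl _ hvN
    · have hq0 : Polynomial.aeval x p.divX ≠ 0 := left_ne_zero_of_mul hT
      have hx0 : x ≠ 0 := right_ne_zero_of_mul hT
      have hTpos : 0 < v.ord (Polynomial.aeval x p.divX * x) := by
        rw [v.ord_mul hq0 hx0]
        have : 0 ≤ v.ord (Polynomial.aeval x p.divX) :=
          FF.ord_nonneg_of_mem v (aeval_mem_of_mem K v hxv _)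
        omega
      have h := FF.ord_add_eq_of_lt v (f := algebraMap K F (p.coeff 0))
        (g := Polynomial.aeval x p.divX * x) (by rw [hordc]; exact hTpos) hc' hT
      rw [add_comm, ← hdec, hordc] at h
      omega
  rw [hc, map_zero, add_zero] at hdec
  have hq0 : Polynomial.aeval x p.divX ≠ 0 := by
    intro h
    rw [h, zero_mul] at hdec
    exact hN0 hdec
  have hx0 : x ≠ 0 := by
    intro h
    rw [h, Place.ord_zero] at hv
    exact lt_irrefl _ hv
  refine ⟨(b : F), ha0, hPb, fun w hw => ?_⟩
  rw [hN, hdec, w.ord_mul hq0 hx0]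
  have : 0 ≤ w.ord (Polynomial.aeval x p.divX) :=
    FF.ord_nonneg_of_mem w (aeval_mem_of_mem K w (FF.mem_of_ord_pos w hw) _)
  omega

end Closure

end Fermat.Agent.S24.FibreCount.Avoid
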