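import Mathlib

set_option autoImplicit false

/-!
Abstract counting lemma for the fibre count (G3): a surjection `φ : Q → V` is forced to be
bijective by a weighted count.
-/

namespace Fermat.Agent.S24.FibreCount.Counting

/-- Abstract counting lemma: let `π : I → Q` and `φ : Q → V` be surjections of finite types and
`e : V → ℕ` positive weights with `∑ v, e v = |I|`. If `e (φ (π i))` is at most the size of the
`π`-fibre through `i` for every `i`, then `φ` is bijective. -/
theorem bijective_of_fibre_count {I Q V : Type*} [Fintype I] [Fintype Q] [Fintype V]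
    (π : I → Q) (hπ : Function.Surjective π) (φ : Q → V) (hφ : Function.Surjective φ)
    (e : V → ℕ) (he : ∀ v, 0 < e v) (hsum : ∑ v, e v = Fintype.card I)
    (hle : ∀ i, e (φ (π i)) ≤ Nat.card {j // π j = π i}) : Function.Bijective φ := by
  classical
  refine ⟨?_, hφ⟩
  -- size of each fibre of π
  have hI : Fintype.card I = ∑ q : Q, Nat.card {j // π j = q} := by
    rw [← Finset.card_univ, Finset.card_eq_sum_card_fiberwise (f := π) (t := Finset.univ)
      (fun i _ => Finset.mem_univ _)]
    refine Finset.sum_congr rfl fun q _ => ?_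
    rw [Nat.card_eq_fintype_card, Fintype.card_subtype]
  have hq : ∀ q : Q, e (φ q) ≤ Nat.card {j // π j = q} := by
    intro q
    obtain ⟨i, rfl⟩ := hπ q
    exact hle i
  -- sum over fibres of φ
  have h1 : ∑ q : Q, Nat.card {j // π j = q}
      = ∑ v : V, ∑ q ∈ Finset.univ.filter (fun q => φ q = v), Nat.card {j // π j = q} :=
    (Finset.sum_fiberwise Finset.univ φ _).symm
  have h2 : ∀ v : V, e v * (Finset.univ.filter (fun q => φ q = v)).card
      ≤ ∑ q ∈ Finset.univ.filter (fun q => φ q = v), Nat.card {j // π j = q} := by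
    intro v
    rw [mul_comm, ← smul_eq_mul, ← Finset.sum_const]
    refine Finset.sum_le_sum fun q hq' => ?_
    rw [Finset.mem_filter] at hq'
    rw [← hq'.2]
    exact hq q
  have h3 : ∀ v : V, 1 ≤ (Finset.univ.filter (fun q => φ q = v)).card := by
    intro v
    obtain ⟨q, hq'⟩ := hφ v
    exact Finset.card_pos.mpr ⟨q, by simp [hq']⟩
  -- all fibres have exactly one element
  have h4 : ∀ v : V, (Finset.univ.filter (fun q => φ q = v)).card = 1 := by
    by_contra hcon
    push Not at hcon
    obtain ⟨v₀, hv₀⟩ := hcon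
    have hv₀' : 2 ≤ (Finset.univ.filter (fun q => φ q = v₀)).card := by
      have := h3 v₀
      omega
    have hlt : ∑ v : V, e v < ∑ v : V, e v * (Finset.univ.filter (fun q => φ q = v)).card := by
      refine Finset.sum_lt_sum (fun v _ => ?_) ⟨v₀, Finset.mem_univ _, ?_⟩
      · exact Nat.le_mul_of_pos_right _ (h3 v)
      · have := he v₀
        nlinarith
    have hle' : ∑ v : V, e v * (Finset.univ.filter (fun q => φ q = v)).card
        ≤ ∑ q : Q, Nat.card {j // π j = q} := by
      rw [h1]
      exact Finset.sum_le_sum fun v _ => h2 v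
    omega
  intro q₁ q₂ h12
  have hcard := h4 (φ q₁)
  rw [Finset.card_eq_one] at hcard
  obtain ⟨q₀, hq₀⟩ := hcard
  have m1 : q₁ ∈ Finset.univ.filter (fun q => φ q = φ q₁) := by simp
  have m2 : q₂ ∈ Finset.univ.filter (fun q => φ q = φ q₁) := by simp [h12]
  rw [hq₀, Finset.mem_singleton] at m1 m2
  rw [m1, m2]

/-- Consequence: the two cardinalities agree. -/
theorem card_eq_of_fibre_count {I Q V : Type*} [Fintype I] [Fintype Q] [Fintype V]
    (π : I → Q) (hπ : Function.Surjective π) (φ : Q → V) (hφ : Function.Surjective φ)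
    (e : V → ℕ) (he : ∀ v, 0 < e v) (hsum : ∑ v, e v = Fintype.card I)
    (hle : ∀ i, e (φ (π i)) ≤ Nat.card {j // π j = π i}) : Nat.card V = Nat.card Q :=
  (Nat.card_congr (Equiv.ofBijective φ
    (bijective_of_fibre_count π hπ φ hφ e he hsum hle))).symm

end Fermat.Agent.S24.FibreCount.Counting
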