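import Mathlib

set_option autoImplicit false

namespace Fermat.Agent.S24.FibreCount.NormProd

open IntermediateField

variable {K F E : Type*} [Field K] [Field F] [Algebra K F] [Field E]

/-- Two ring homomorphisms that agree on the constants and on `t` agree on `K⟮t⟯`. -/
theorem eq_on_adjoin_simple (φ ψ : F →+* E) (t : F)
    (hK : ∀ c : K, φ (algebraMap K F c) = ψ (algebraMap K F c)) (ht : φ t = ψ t) :
    ∀ l ∈ K⟮t⟯, φ l = ψ l := by
  intro l hl
  induction hl using IntermediateField.adjoin_induction with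
  | mem x hx =>
    rw [Set.mem_singleton_iff] at hx
    rw [hx, ht]
  | algebraMap x => exact hK x
  | add x y _ _ hx hy => rw [map_add, map_add, hx, hy]
  | inv x _ hx => rw [map_inv₀, map_inv₀, hx]
  | mul x y _ _ hx hy => rw [map_mul, map_mul, hx, hy]

/-- If `F/K(t)` is finite separable and there are at least `[F : K(t)]` distinct embeddings of
`F` into a field `E` which agree on `K(t)`, then there are exactly `[F : K(t)]` of them and the
norm of an element is the product of its images. -/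
theorem norm_eq_prod_of_embeddings {X : Type*} [Fintype X] (t : F)
    [FiniteDimensional K⟮t⟯ F] [Algebra.IsSeparable K⟮t⟯ F]
    (ι : X → F →+* E) (hι : Function.Injective ι)
    (hK : ∀ (x y : X) (c : K), ι x (algebraMap K F c) = ι y (algebraMap K F c))
    (ht : ∀ x y : X, ι x t = ι y t)
    (hcard : Module.finrank K⟮t⟯ F ≤ Fintype.card X) (x₀ : X) :
    Fintype.card X = Module.finrank K⟮t⟯ F ∧
      ∀ a : F, ι x₀ ((Algebra.norm K⟮t⟯ a : K⟮t⟯) : F) = ∏ x, ι x a := by
  classical
  let Ē := AlgebraicClosure E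
  let φ : K⟮t⟯ →+* Ē := (algebraMap E Ē).comp ((ι x₀).comp (algebraMap K⟮t⟯ F))
  let _ : Algebra K⟮t⟯ Ē := φ.toAlgebra
  have hφ : ∀ l : K⟮t⟯, algebraMap K⟮t⟯ Ē l = algebraMap E Ē (ι x₀ (l : F)) := fun l => rfl
  let ψ : X → (F →ₐ[K⟮t⟯] Ē) := fun x =>
    { toRingHom := (algebraMap E Ē).comp (ι x)
      commutes' := fun l => by
        show algebraMap E Ē (ι x (l : F)) = algebraMap E Ē (ι x₀ (l : F))
        rw [eq_on_adjoin_simple (ι x) (ι x₀) t (hK x x₀) (ht x x₀) l l.2] }
  have hψ_apply : ∀ x (f : F), ψ x f = algebraMap E Ē (ι x f) := fun x f => rfl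
  have hψ_inj : Function.Injective ψ := by
    intro x y hxy
    apply hι
    ext f
    have h := congrArg (fun σ : F →ₐ[K⟮t⟯] Ē => σ f) hxy
    simp only [hψ_apply] at h
    exact (algebraMap E Ē).injective h
  have hcardHom : Fintype.card (F →ₐ[K⟮t⟯] Ē) = Module.finrank K⟮t⟯ F := AlgHom.card K⟮t⟯ F Ē
  have hle : Fintype.card X ≤ Fintype.card (F →ₐ[K⟮t⟯] Ē) :=
    Fintype.card_le_of_injective ψ hψ_inj
  have hcardX : Fintype.card X = Module.finrank K⟮t⟯ F := by omega
  have hψ_bij : Function.Bijective ψ := by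
    rw [Fintype.bijective_iff_injective_and_card]
    exact ⟨hψ_inj, by rw [hcardHom, hcardX]⟩
  refine ⟨hcardX, fun a => ?_⟩
  have hnorm := Algebra.norm_eq_prod_embeddings K⟮t⟯ Ē a
  rw [hφ] at hnorm
  have hprod : ∏ σ : F →ₐ[K⟮t⟯] Ē, σ a = algebraMap E Ē (∏ x, ι x a) := by
    rw [map_prod]
    exact (Fintype.prod_bijective ψ hψ_bij _ _ (fun x => hψ_apply x a)).symm
  rw [hprod] at hnorm
  exact (algebraMap E Ē).injective hnorm

end Fermat.Agent.S24.FibreCount.NormProd
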