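import Mathlib
import Fermat.Agent.S24.FF.Dedekind
import Fermat.Agent.S24.FibreCount.ValPlace
import Fermat.Agent.S24.FibreCount.NormProd
import Fermat.Agent.S24.FibreCount.Avoid

set_option autoImplicit false

/-!
Fibre count, field form: the places of `F` over `x = 0` are in bijection with the `⟨g⟩`-orbits
on a full system of embeddings of `F` into a field `E` carrying an order function.
-/

namespace Fermat.Agent.S24.FibreCount.Field

open AlgebraicCurve IntermediateField
open Fermat.Agent.S24.FibreCount.ValPlace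
open Fermat.Agent.S24

variable {K F : Type*} [Field K] [Field F] [Algebra K F]

/-- Counting lemma: an injection `σ : V → Q` with `e v ≤ c (σ v)`, `c > 0` and
`∑ c ≤ ∑ e` is a bijection. -/
theorem card_eq_of_sum_le {V Q : Type*} [Fintype V] [Fintype Q] (e : V → ℕ) (c : Q → ℕ)
    (hc : ∀ o, 0 < c o) (σ : V → Q) (hσ : Function.Injective σ) (hle : ∀ v, e v ≤ c (σ v))
    (hsum : ∑ o, c o ≤ ∑ v, e v) : Fintype.card V = Fintype.card Q := by
  classical
  have h1 : ∑ v, e v ≤ ∑ v, c (σ v) := Finset.sum_le_sum fun v _ => hle v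
  have h2 : ∑ v, c (σ v) = ∑ o ∈ Finset.univ.image σ, c o := by
    rw [Finset.sum_image (fun a _ b _ h => hσ h)]
  have h3 : Finset.univ.image σ = Finset.univ := by
    by_contra hne
    have hss : Finset.univ.image σ ⊂ Finset.univ := Finset.ssubset_univ_iff.mpr hne
    obtain ⟨o, -, ho⟩ := Finset.exists_of_ssubset hss
    have : ∑ o ∈ Finset.univ.image σ, c o < ∑ o, c o :=
      Finset.sum_lt_sum_of_subset (Finset.subset_univ _) (Finset.mem_univ o) ho (hc o)
        (fun j _ _ => Nat.zero_le _)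
    omega
  have hsurj : Function.Surjective σ := by
    intro o
    have : o ∈ Finset.univ.image σ := by rw [h3]; exact Finset.mem_univ o
    obtain ⟨v, -, hv⟩ := Finset.mem_image.mp this
    exact ⟨v, hv⟩
  exact Fintype.card_of_bijective ⟨hσ, hsurj⟩

/-- A function invariant under `g` is invariant under the orbit relation of `⟨g⟩`. -/
theorem eq_of_orbitRel_zpowers {I Γ α : Type*} [Group Γ] [MulAction Γ I] (g : Γ) (P : I → α)
    (hP : ∀ i, P (g • i) = P i) {i j : I}
    (h : MulAction.orbitRel (Subgroup.zpowers g) I i j) : P i = P j := by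
  have hpow : ∀ (n : ℕ) (i : I), P (g ^ n • i) = P i := by
    intro n
    induction n with
    | zero => intro i; simp
    | succ n ih => intro i; rw [pow_succ', mul_smul, hP, ih]
  rw [MulAction.orbitRel_apply] at h
  obtain ⟨⟨γ, hγ⟩, rfl⟩ := h
  obtain ⟨k, rfl⟩ := Subgroup.mem_zpowers_iff.mp hγ
  show P (g ^ k • j) = P j
  cases k with
  | ofNat n => simpa using hpow n j
  | negSucc n =>
    rw [zpow_negSucc]
    have h1 := hpow (n + 1) ((g ^ (n + 1))⁻¹ • j)
    rw [smul_inv_smul] at h1
    exact h1.symm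

/-- **Fibre count, field form.** -/
theorem card_zeroPlaces_eq_card_orbits_field [IsAlgClosed K] [CharZero K]
    [Algebra.EssFiniteType K F] (htr : Algebra.trdeg K F = 1)
    (x : F) (hx : Transcendental K x) (hfin : FiniteDimensional K⟮x⟯ F)
    {E : Type*} [Field E] (u : E → ℤ) (hu : IsOrd u)
    {I : Type*} [Fintype I] (ι : I → F →+* E) (hι : Function.Injective ι)
    (hcard : Fintype.card I = Module.finrank K⟮x⟯ F)
    (hK : ∀ i j (c : K), ι i (algebraMap K F c) = ι j (algebraMap K F c))
    (hxx : ∀ i j, ι i x = ι j x)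
    (hconst : ∀ i (c : K), c ≠ 0 → u (ι i (algebraMap K F c)) = 0)
    (s : ℕ) (hs : 0 < s) (hxs : ∀ i, u (ι i x) = s)
    {Γ : Type*} [Group Γ] [MulAction Γ I] (g : Γ)
    (hg : ∀ i (f : F), u (ι (g • i) f) = u (ι i f))
    (hdiv : ∀ i (f : F), f ≠ 0 →
      (s : ℤ) ∣ u (ι i f) * (Function.minimalPeriod (g • ·) i : ℤ)) :
    Nat.card {v : Place K F // 0 < v.ord x}
      = Nat.card (MulAction.orbitRel.Quotient (Subgroup.zpowers g) I) := by
  classical
  have hx0 : x ≠ 0 := by
    rintro rfl
    exact hx isAlgebraic_zero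
  have : Fact (Transcendental K x) := ⟨hx⟩
  have : Module.Finite K⟮x⟯ F := hfin
  have hIpos : 0 < Fintype.card I := by
    rw [hcard]
    exact Module.finrank_pos
  have : Nonempty I := Fintype.card_pos_iff.mp hIpos
  have hs' : (0 : ℤ) < s := by exact_mod_cast hs
  -- order functions and places
  have huI : ∀ i, IsOrd (fun f => u (ι i f)) := fun i => hu.comp (ι i)
  have hnt : ∀ i, ∃ t : F, t ≠ 0 ∧ 0 < (fun f => u (ι i f)) t := fun i =>
    ⟨x, hx0, by simp only [hxs i]; exact hs'⟩
  let P : I → Place K F := fun i => placeOfOrd (huI i) (hconst i) (hnt i)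
  have hram : ∀ i, ∃ κ : ℤ, 0 < κ ∧ (∃ π : F, π ≠ 0 ∧ u (ι i π) = κ) ∧
      ∀ f : F, f ≠ 0 → u (ι i f) = κ * (P i).ord f := fun i =>
    exists_ramification_placeOfOrd (huI i) (hconst i) (hnt i)
  choose κ hκpos hκπ hκ using hram
  have hsκ : ∀ i, (s : ℤ) = κ i * (P i).ord x := fun i => by rw [← hκ i x hx0, hxs i]
  have hPx : ∀ i, 0 < (P i).ord x := by
    intro i
    have h := hsκ i
    have hκi := hκpos i
    by_contra hle
    rw [not_lt] at hle
    have : κ i * (P i).ord x ≤ 0 := mul_nonpos_of_nonneg_of_nonpos hκi.le hle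
    omega
  -- invariance under `g`
  have hPg : ∀ i, P (g • i) = P i := by
    intro i
    apply Place.ext
    show (huI (g • i)).valSubring = (huI i).valSubring
    ext f
    rw [IsOrd.mem_valSubring, IsOrd.mem_valSubring, hg i f]
  -- surjectivity
  have hsurj : ∀ v : Place K F, 0 < v.ord x → ∃ i, P i = v := by
    intro v hv
    by_contra hne
    simp only [not_exists] at hne
    obtain ⟨a, ha0, hPa, hN⟩ := Avoid.exists_norm_pos K x v hv P hPx hne
    let i₀ : I := Classical.arbitrary I
    obtain ⟨-, hprod⟩ := NormProd.norm_eq_prod_of_embeddings (K := K) x ι hι hK hxx hcard.ge i₀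
    have h1 := hprod a
    have hN0 : algebraMap K⟮x⟯ F (Algebra.norm K⟮x⟯ a) ≠ 0 := by
      have : Algebra.norm K⟮x⟯ a ≠ 0 := by
        rw [Ne, Algebra.norm_eq_zero_iff]
        exact ha0
      simpa using this
    have h2 := hκ i₀ _ hN0
    have h3 : u (∏ i, ι i a) = ∑ i, u (ι i a) :=
      hu.map_prod Finset.univ (fun i => ι i a) (fun i _ => (map_ne_zero (ι i)).mpr ha0)
    have h4 : ∑ i, u (ι i a) = 0 :=
      Finset.sum_eq_zero (fun i _ => by rw [hκ i a ha0, hPa i, mul_zero])
    have h5 := hN (P i₀) (hPx i₀)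
    have h6 : u (ι i₀ (algebraMap K⟮x⟯ F (Algebra.norm K⟮x⟯ a))) = 0 := by
      have : ι i₀ (algebraMap K⟮x⟯ F (Algebra.norm K⟮x⟯ a)) = ∏ i, ι i a := h1
      rw [this, h3, h4]
    rw [h6] at h2
    have : 0 < κ i₀ * (P i₀).ord (algebraMap K⟮x⟯ F (Algebra.norm K⟮x⟯ a)) :=
      mul_pos (hκpos i₀) h5
    omega
  -- the fibre is finite and the orders add up to the degree
  have hVfin : {v : Place K F | 0 < v.ord x}.Finite := by
    have := FF.zeros_finite htr hx 0
    simpa using this
  have hVsum : ∑ᶠ v ∈ {v : Place K F | 0 < v.ord x}, v.ord x = (Module.finrank K⟮x⟯ F : ℤ) := by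
    have := FF.sum_ord_zeros htr hx 0
    simpa using this
  let V : Set (Place K F) := {v : Place K F | 0 < v.ord x}
  have : Fintype ↥V := hVfin.fintype
  have hVsum' : ∑ v : ↥V, v.1.ord x = (Module.finrank K⟮x⟯ F : ℤ) := by
    rw [← hVsum, ← finsum_set_coe_eq_finsum_mem, finsum_eq_sum_of_fintype]
  -- the orbit space
  have : Fintype (MulAction.orbitRel.Quotient (Subgroup.zpowers g) I) := Fintype.ofFinite _
  let mk : I → MulAction.orbitRel.Quotient (Subgroup.zpowers g) I := Quotient.mk''
  have hmk : ∀ i j, mk i = mk j → P i = P j := by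
    intro i j h
    exact eq_of_orbitRel_zpowers g P hPg (Quotient.exact h)
  choose rep hrep using fun v : ↥V => hsurj v.1 v.2
  have hσ : Function.Injective (fun v => mk (rep v)) := by
    intro v v' h
    apply Subtype.ext
    rw [← hrep v, ← hrep v']
    exact hmk _ _ h
  let c : MulAction.orbitRel.Quotient (Subgroup.zpowers g) I → ℕ :=
    fun o => Fintype.card {i : I // mk i = o}
  have hcsum : ∑ o, c o = Fintype.card I := by
    rw [← Fintype.card_sigma]
    exact Fintype.card_congr (Equiv.sigmaFiberEquiv mk)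
  have hcmk : ∀ i, c (mk i) = Function.minimalPeriod (g • ·) i := by
    intro i
    rw [MulAction.minimalPeriod_eq_card]
    apply Fintype.card_congr
    refine Equiv.subtypeEquivRight (fun j => ?_)
    show mk j = mk i ↔ j ∈ MulAction.orbit (Subgroup.zpowers g) i
    rw [← MulAction.orbitRel_apply]
    exact Quotient.eq''
  have hcpos : ∀ o, 0 < c o := by
    intro o
    obtain ⟨i, rfl⟩ := Quotient.mk''_surjective o
    exact Fintype.card_pos_iff.mpr ⟨⟨i, rfl⟩⟩
  let e : ↥V → ℕ := fun v => (v.1.ord x).toNat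
  have he : ∀ v : ↥V, (e v : ℤ) = v.1.ord x := fun v => Int.toNat_of_nonneg (le_of_lt v.2)
  have hle : ∀ v, e v ≤ c (mk (rep v)) := by
    intro v
    rw [hcmk]
    obtain ⟨π, hπ0, hπ⟩ := hκπ (rep v)
    have hd := hdiv (rep v) π hπ0
    rw [hπ, hsκ (rep v)] at hd
    have hd' : (P (rep v)).ord x ∣ (Function.minimalPeriod (g • ·) (rep v) : ℤ) :=
      (mul_dvd_mul_iff_left (hκpos (rep v)).ne').mp hd
    have hperpos : 0 < Function.minimalPeriod (g • ·) (rep v) := by
      rw [← hcmk]
      exact hcpos _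
    have hle' := Int.le_of_dvd (by exact_mod_cast hperpos) hd'
    have := he v
    rw [← hrep v] at this
    omega
  have hsum : ∑ o, c o ≤ ∑ v, e v := by
    rw [hcsum, hcard]
    have : ((∑ v, e v : ℕ) : ℤ) = (Module.finrank K⟮x⟯ F : ℤ) := by
      rw [← hVsum']
      push_cast
      exact Finset.sum_congr rfl (fun v _ => he v)
    have := Nat.cast_injective (R := ℤ) this
    omega
  have hfinal := card_eq_of_sum_le e c hcpos (fun v => mk (rep v)) hσ hle hsum
  show Nat.card ↥V = _
  rw [Nat.card_eq_fintype_card, Nat.card_eq_fintype_card]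
  exact hfinal

end Fermat.Agent.S24.FibreCount.Field
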