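import Mathlib
import Fermat.Agent.S24.FibreCount.Field

set_option autoImplicit false

/-!
Fibre count (G3): the number of places of `F` over `x = 0` equals the number of `⟨g⟩`-orbits
on a full system of embeddings of a generating subalgebra of `F` into a domain `R` carrying an
order function.  This is the field form applied to `FractionRing R`.
-/

namespace Fermat.Agent.S24.FibreCount.Main

open AlgebraicCurve IntermediateField
open Fermat.Agent.S24.FibreCount.ValPlace
open Fermat.Agent.S24.FibreCount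

section Frac

variable {R : Type*} [CommRing R] [IsDomain R] (ordR : R → ℤ)

/-- Extension of an order function on a domain to its fraction field. -/
noncomputable def ordFrac (e : FractionRing R) : ℤ :=
  ordR (IsLocalization.sec (nonZeroDivisors R) e).1 -
    ordR ((IsLocalization.sec (nonZeroDivisors R) e).2 : R)

variable {ordR} (hmul : ∀ a b : R, a ≠ 0 → b ≠ 0 → ordR (a * b) = ordR a + ordR b)
include hmul

theorem ordFrac_div {a b : R} (ha : a ≠ 0) (hb : b ≠ 0) :
    ordFrac ordR (algebraMap R (FractionRing R) a / algebraMap R (FractionRing R) b)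
      = ordR a - ordR b := by
  have hinj := IsFractionRing.injective R (FractionRing R)
  have hb0' : algebraMap R (FractionRing R) b ≠ 0 := (map_ne_zero_iff _ hinj).mpr hb
  have hspec := IsLocalization.sec_spec (nonZeroDivisors R)
    (algebraMap R (FractionRing R) a / algebraMap R (FractionRing R) b)
  have hb'0 : ((IsLocalization.sec (nonZeroDivisors R)
      (algebraMap R (FractionRing R) a / algebraMap R (FractionRing R) b)).2 : R) ≠ 0 :=
    nonZeroDivisors.coe_ne_zero _
  have hcross : a * ((IsLocalization.sec (nonZeroDivisors R)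
      (algebraMap R (FractionRing R) a / algebraMap R (FractionRing R) b)).2 : R) =
      (IsLocalization.sec (nonZeroDivisors R)
      (algebraMap R (FractionRing R) a / algebraMap R (FractionRing R) b)).1 * b := by
    apply hinj
    rw [map_mul, map_mul, ← hspec]
    field_simp
  have ha'0 : (IsLocalization.sec (nonZeroDivisors R)
      (algebraMap R (FractionRing R) a / algebraMap R (FractionRing R) b)).1 ≠ 0 := by
    intro h
    rw [h, zero_mul] at hcross
    exact mul_ne_zero ha hb'0 hcross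
  have h1 := hmul a _ ha hb'0
  have h2 := hmul _ b ha'0 hb
  rw [hcross] at h1
  unfold ordFrac
  omega

theorem ordFrac_algebraMap {a : R} (ha : a ≠ 0) :
    ordFrac ordR (algebraMap R (FractionRing R) a) = ordR a := by
  have h := ordFrac_div hmul ha (one_ne_zero (α := R))
  rw [map_one, div_one] at h
  rw [h]
  have h1 := hmul 1 1 one_ne_zero one_ne_zero
  rw [mul_one] at h1
  omega

theorem isOrd_ordFrac
    (hadd : ∀ a b : R, a ≠ 0 → b ≠ 0 → a + b ≠ 0 → min (ordR a) (ordR b) ≤ ordR (a + b)) :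
    IsOrd (ordFrac ordR) := by
  have hinj := IsFractionRing.injective R (FractionRing R)
  have key : ∀ e : FractionRing R, e ≠ 0 → ∃ a b : R, a ≠ 0 ∧ b ≠ 0 ∧
      e = algebraMap R (FractionRing R) a / algebraMap R (FractionRing R) b := by
    intro e he
    obtain ⟨a, b, hb, rfl⟩ := IsFractionRing.div_surjective (A := R) e
    have hb0 : b ≠ 0 := nonZeroDivisors.ne_zero hb
    refine ⟨a, b, ?_, hb0, rfl⟩
    rintro rfl
    simp at he
  refine ⟨fun e₁ e₂ h₁ h₂ => ?_, fun e₁ e₂ h₁ h₂ h₁₂ => ?_⟩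
  · obtain ⟨a₁, b₁, ha₁, hb₁, rfl⟩ := key e₁ h₁
    obtain ⟨a₂, b₂, ha₂, hb₂, rfl⟩ := key e₂ h₂
    rw [div_mul_div_comm, ← map_mul, ← map_mul,
      ordFrac_div hmul (mul_ne_zero ha₁ ha₂) (mul_ne_zero hb₁ hb₂), ordFrac_div hmul ha₁ hb₁,
      ordFrac_div hmul ha₂ hb₂, hmul _ _ ha₁ ha₂, hmul _ _ hb₁ hb₂]
    ring
  · obtain ⟨a₁, b₁, ha₁, hb₁, rfl⟩ := key e₁ h₁
    obtain ⟨a₂, b₂, ha₂, hb₂, rfl⟩ := key e₂ h₂
    have hb₁' : algebraMap R (FractionRing R) b₁ ≠ 0 := (map_ne_zero_iff _ hinj).mpr hb₁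
    have hb₂' : algebraMap R (FractionRing R) b₂ ≠ 0 := (map_ne_zero_iff _ hinj).mpr hb₂
    have hsum : algebraMap R (FractionRing R) a₁ / algebraMap R (FractionRing R) b₁ +
        algebraMap R (FractionRing R) a₂ / algebraMap R (FractionRing R) b₂ =
        algebraMap R (FractionRing R) (a₁ * b₂ + a₂ * b₁) /
          algebraMap R (FractionRing R) (b₁ * b₂) := by
      rw [map_add, map_mul, map_mul, map_mul]
      field_simp
    have hnum : a₁ * b₂ + a₂ * b₁ ≠ 0 := by
      intro h
      rw [hsum, h, map_zero, zero_div] at h₁₂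
      exact h₁₂ rfl
    rw [hsum, ordFrac_div hmul hnum (mul_ne_zero hb₁ hb₂), ordFrac_div hmul ha₁ hb₁,
      ordFrac_div hmul ha₂ hb₂, hmul _ _ hb₁ hb₂]
    have h := hadd (a₁ * b₂) (a₂ * b₁) (mul_ne_zero ha₁ hb₂) (mul_ne_zero ha₂ hb₁) hnum
    rw [hmul _ _ ha₁ hb₂, hmul _ _ ha₂ hb₁] at h
    rcases min_le_iff.mp h with h' | h'
    · exact min_le_iff.mpr (Or.inl (by omega))
    · exact min_le_iff.mpr (Or.inr (by omega))

end Frac

variable {K F : Type*} [Field K] [Field F] [Algebra K F]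

/-- **G3 (fibre count).**  Same statement as the skeleton lemma
`Fermat.Agent.S24.Generic.card_zeroPlaces_eq_card_orbits`. -/
theorem card_zeroPlaces_eq_card_orbits [IsAlgClosed K] [CharZero K]
    [Algebra.EssFiniteType K F] (htr : Algebra.trdeg K F = 1)
    (x : F) (hx : Transcendental K x) (hfin : FiniteDimensional K⟮x⟯ F)
    (F₀ : Subalgebra K F) (hF₀ : ∀ f : F, ∃ a b : F₀, (b : F) ≠ 0 ∧ f * b = a)
    (num den : F₀) (hden : den ≠ 0) (hxnd : x * den = num)
    {R : Type*} [CommRing R] [IsDomain R] (ordR : R → ℤ)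
    (hmul : ∀ a b : R, a ≠ 0 → b ≠ 0 → ordR (a * b) = ordR a + ordR b)
    (hadd : ∀ a b : R, a ≠ 0 → b ≠ 0 → a + b ≠ 0 → min (ordR a) (ordR b) ≤ ordR (a + b))
    {I : Type*} [Fintype I] (ρ : I → F₀ →+* R) (hρ_inj : ∀ i, Function.Injective (ρ i))
    (hρ_ne : Function.Injective ρ)
    (hcard : Fintype.card I = Module.finrank K⟮x⟯ F)
    (hK : ∀ i j (c : K), ρ i (algebraMap K F₀ c) = ρ j (algebraMap K F₀ c))
    (hnum : ∀ i j, ρ i num = ρ j num) (hden' : ∀ i j, ρ i den = ρ j den)
    (hconst : ∀ i (c : K), c ≠ 0 → ordR (ρ i (algebraMap K F₀ c)) = 0)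
    (s : ℕ) (hs : 0 < s) (hxs : ∀ i, ordR (ρ i num) - ordR (ρ i den) = s)
    {Γ : Type*} [Group Γ] [MulAction Γ I] (g : Γ)
    (hg : ∀ i (f : F₀), ordR (ρ (g • i) f) = ordR (ρ i f))
    (hdiv : ∀ i (f : F₀), f ≠ 0 →
      (s : ℤ) ∣ ordR (ρ i f) * (Function.minimalPeriod (g • ·) i : ℤ)) :
    Nat.card {v : Place K F // 0 < v.ord x}
      = Nat.card (MulAction.orbitRel.Quotient (Subgroup.zpowers g) I) := by
  classical
  have hinjR : Function.Injective (algebraMap R (FractionRing R)) :=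
    IsFractionRing.injective R (FractionRing R)
  have hcoe0 : ∀ a : F₀, a ≠ 0 → (a : F) ≠ 0 := by
    intro a ha h
    exact ha (Subtype.ext h)
  -- `F` is the fraction field of `F₀`
  have hfracRing : IsFractionRing F₀ F := by
    apply IsFractionRing.of_field
    intro f
    obtain ⟨a, b, hb, hab⟩ := hF₀ f
    refine ⟨a, b, ?_⟩
    show f = (a : F) / (b : F)
    rw [eq_div_iff hb]
    exact hab
  have hρE : ∀ i, Function.Injective ((algebraMap R (FractionRing R)).comp (ρ i)) :=
    fun i => hinjR.comp (hρ_inj i)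
  let ι : I → F →+* FractionRing R := fun i => IsFractionRing.lift (hρE i)
  have hι_apply : ∀ i (a : F₀), ι i (a : F) = algebraMap R (FractionRing R) (ρ i a) :=
    fun i a => IsFractionRing.lift_algebraMap (hρE i) a
  have hu : IsOrd (ordFrac ordR) := isOrd_ordFrac hmul hadd
  have hu_apply : ∀ i (a : F₀), a ≠ 0 → ordFrac ordR (ι i (a : F)) = ordR (ρ i a) := by
    intro i a ha
    rw [hι_apply, ordFrac_algebraMap hmul ((map_ne_zero_iff _ (hρ_inj i)).mpr ha)]
  have hfrac : ∀ f : F, f ≠ 0 → ∃ a b : F₀, a ≠ 0 ∧ b ≠ 0 ∧ f = (a : F) / (b : F) := by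
    intro f hf
    obtain ⟨a, b, hb, hab⟩ := hF₀ f
    refine ⟨a, b, ?_, ?_, by rw [eq_div_iff hb]; exact hab⟩
    · rintro rfl
      rw [ZeroMemClass.coe_zero] at hab
      exact mul_ne_zero hf hb hab
    · rintro rfl
      exact hb rfl
  have hu_div : ∀ i (a b : F₀), a ≠ 0 → b ≠ 0 →
      ordFrac ordR (ι i ((a : F) / (b : F))) = ordR (ρ i a) - ordR (ρ i b) := by
    intro i a b ha hb
    rw [map_div₀, hu.map_div ((map_ne_zero (ι i)).mpr (hcoe0 a ha))
      ((map_ne_zero (ι i)).mpr (hcoe0 b hb)), hu_apply i a ha, hu_apply i b hb]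
  have hx0 : x ≠ 0 := by
    rintro rfl
    exact hx isAlgebraic_zero
  have hnum0 : num ≠ 0 := by
    rintro rfl
    rw [ZeroMemClass.coe_zero] at hxnd
    exact mul_ne_zero hx0 (hcoe0 den hden) hxnd
  have hxfrac : x = (num : F) / (den : F) := by
    rw [eq_div_iff (hcoe0 den hden)]
    exact hxnd
  have hKcoe : ∀ c : K, algebraMap K F c = ((algebraMap K F₀ c : F₀) : F) := fun c => rfl
  refine Field.card_zeroPlaces_eq_card_orbits_field htr x hx hfin (ordFrac ordR) hu ι ?_ hcard
    ?_ ?_ ?_ s hs ?_ g ?_ ?_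
  · intro i j hij
    apply hρ_ne
    ext a
    apply hinjR
    rw [← hι_apply, ← hι_apply, hij]
  · intro i j c
    rw [hKcoe, hι_apply, hι_apply, hK i j c]
  · intro i j
    rw [hxfrac, map_div₀, map_div₀, hι_apply, hι_apply, hι_apply, hι_apply, hnum i j,
      hden' i j]
  · intro i c hc
    have hc' : algebraMap K F₀ c ≠ 0 := by
      intro h
      have h2 : algebraMap K F c = 0 := by rw [hKcoe, h]; rfl
      exact hc (by simpa using h2)
    rw [hKcoe, hu_apply i _ hc']
    exact hconst i c hc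
  · intro i
    rw [hxfrac, hu_div i num den hnum0 hden]
    exact hxs i
  · intro i f
    rcases eq_or_ne f 0 with rfl | hf
    · simp
    obtain ⟨a, b, ha, hb, rfl⟩ := hfrac f hf
    rw [hu_div _ a b ha hb, hu_div _ a b ha hb, hg i a, hg i b]
  · intro i f hf
    obtain ⟨a, b, ha, hb, rfl⟩ := hfrac f hf
    rw [hu_div _ a b ha hb, sub_mul]
    exact dvd_sub (hdiv i a ha) (hdiv i b hb)

end Fermat.Agent.S24.FibreCount.Main
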